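import Mathlib.RingTheory.MvPowerSeries.Inverse
import Mathlib.RingTheory.LocalRing.MaximalIdeal.Basic
import Mathlib.RingTheory.MvPowerSeries.Basic
import Mathlib.RingTheory.AdicCompletion.Basic
import Mathlib.Data.Finsupp.Weight
import Mathlib.Algebra.MvPolynomial.Basic

/-!
# Power series over a complete local ring are complete for their maximal ideal

`𝔪ⁿ` of `O⟦X₁,…,X_d⟧` consists of the series whose coefficient at `m` lies in `𝔪_O^(n - |m|)`.
-/

set_option autoImplicit false

noncomputable section

open IsLocalRing MvPowerSeries

namespace Fermat.Agent.RT.Patch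

variable {O : Type*} [CommRing O] [IsLocalRing O] {σ : Type*}

theorem pow_sub_le_pow_sub {a b n : ℕ} (h : a ≤ b) :
    maximalIdeal O ^ (n - a) ≤ maximalIdeal O ^ (n - b) :=
  Ideal.pow_le_pow_right (Nat.sub_le_sub_left h n)

/-- Series whose coefficient at `m` lies in `𝔪_O^(n - |m|)`. -/
def weightIdeal (O : Type*) [CommRing O] [IsLocalRing O] (σ : Type*) (n : ℕ) :
    Ideal (MvPowerSeries σ O) where
  carrier := {f | ∀ m : σ →₀ ℕ, coeff m f ∈ maximalIdeal O ^ (n - m.degree)}
  zero_mem' m := by simp
  add_mem' hf hg m := by simpa using add_mem (hf m) (hg m)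
  smul_mem' a f hf m := by
    classical
    rw [smul_eq_mul, coeff_mul]
    refine sum_mem fun x hx => Ideal.mul_mem_left _ _ ?_
    refine pow_sub_le_pow_sub ?_ (hf x.2)
    rw [Finset.HasAntidiagonal.mem_antidiagonal] at hx
    rw [← hx, map_add]
    exact Nat.le_add_left _ _

theorem mem_weightIdeal {n : ℕ} {f : MvPowerSeries σ O} :
    f ∈ weightIdeal O σ n ↔ ∀ m : σ →₀ ℕ, coeff m f ∈ maximalIdeal O ^ (n - m.degree) :=
  Iff.rfl

theorem weightIdeal_mul_le (a b : ℕ) :
    weightIdeal O σ a * weightIdeal O σ b ≤ weightIdeal O σ (a + b) := by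
  classical
  refine Ideal.mul_le.2 fun f hf g hg m => ?_
  rw [coeff_mul]
  refine sum_mem fun x hx => ?_
  have hmem := Ideal.mul_mem_mul (hf x.1) (hg x.2)
  rw [← pow_add] at hmem
  refine Ideal.pow_le_pow_right ?_ hmem
  rw [Finset.HasAntidiagonal.mem_antidiagonal] at hx
  rw [← hx, map_add]
  omega

theorem pow_maximalIdeal_le_weightIdeal (n : ℕ) :
    maximalIdeal (MvPowerSeries σ O) ^ n ≤ weightIdeal O σ n := by
  induction n with
  | zero => intro f _ m; simp
  | succ n ih =>
    rw [pow_succ]
    refine le_trans (Ideal.mul_mono ih ?_) (weightIdeal_mul_le n 1)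
    intro f hf m
    rcases Nat.eq_zero_or_pos m.degree with hm | hm
    · rw [Finsupp.degree_eq_zero_iff] at hm
      subst hm
      rw [coeff_zero_eq_constantCoeff_apply, map_zero, Nat.sub_zero, pow_one]
      rwa [mem_maximalIdeal, mem_nonunits_iff, ← isUnit_iff_constantCoeff, ← mem_nonunits_iff,
        ← mem_maximalIdeal]
    · rw [Nat.sub_eq_zero_of_le hm, pow_zero, Ideal.one_eq_top]
      trivial

theorem weightIdeal_le_pow_maximalIdeal [Finite σ] (n : ℕ) :
    weightIdeal O σ n ≤ maximalIdeal (MvPowerSeries σ O) ^ n := by
  classical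
  cases nonempty_fintype σ
  induction n with
  | zero => simp
  | succ n ih =>
    intro f hf
    -- split off the constant term and sort the other terms by the first variable occurring
    let : LinearOrder σ := LinearOrder.lift' (Fintype.equivFin σ) (Fintype.equivFin σ).injective
    let q : σ → MvPowerSeries σ O := fun i m =>
      if (∀ j < i, m j = 0) then coeff (m + Finsupp.single i 1) f else 0
    have hq : ∀ i, q i ∈ weightIdeal O σ n := by
      intro i m
      show (if _ then _ else _) ∈ _
      split_ifs
      · have := hf (m + Finsupp.single i 1)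
        rwa [map_add, Finsupp.degree_single, Nat.succ_sub_succ] at this
      · exact zero_mem _
    have hdec : f = C (constantCoeff f) + ∑ i, X i * q i := by
      refine MvPowerSeries.ext fun m => ?_
      rw [map_add, coeff_C, map_sum]
      by_cases hm : m = 0
      · subst hm
        rw [if_pos rfl, Finset.sum_eq_zero, add_zero, coeff_zero_eq_constantCoeff_apply]
        intro i _
        rw [X, coeff_monomial_mul, if_neg]
        intro h
        have := h i
        simp at this
      · rw [if_neg hm, zero_add]
        have hne : m.support.Nonempty := Finsupp.support_nonempty_iff.2 hm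
        set i₀ := m.support.min' hne with hi₀
        have hi₀1 : 1 ≤ m i₀ :=
          Nat.one_le_iff_ne_zero.2 (Finsupp.mem_support_iff.1 (m.support.min'_mem hne))
        have hmin : ∀ j < i₀, m j = 0 := fun j hj => by
          by_contra hj0
          exact absurd (m.support.min'_le j (Finsupp.mem_support_iff.2 hj0)) (not_le.2 hj)
        rw [Finset.sum_eq_single i₀]
        · have hle : Finsupp.single i₀ 1 ≤ m := Finsupp.single_le_iff.2 hi₀1
          rw [X, coeff_monomial_mul, if_pos hle, one_mul]
          show coeff m f = if _ then _ else _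
          rw [if_pos, tsub_add_cancel_of_le hle]
          intro j hj
          simp [hmin j hj, hj.ne]
        · intro i _ hne'
          rw [X, coeff_monomial_mul]
          split_ifs with hle
          · rw [one_mul]
            show (if _ then _ else _) = _
            rw [if_neg]
            intro hall
            have h1 : 1 ≤ m i := Finsupp.single_le_iff.1 hle
            rcases lt_or_gt_of_ne hne' with h | h
            · have := hmin i h
              omega
            · have := hall i₀ h
              rw [Finsupp.tsub_apply, Finsupp.single_eq_of_ne h.ne] at this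
              omega
          · rfl
        · exact fun h => absurd (Finset.mem_univ _) h
    rw [hdec]
    refine add_mem ?_ (sum_mem fun i _ => ?_)
    · have h0 := hf 0
      rw [coeff_zero_eq_constantCoeff_apply, map_zero, Nat.sub_zero] at h0
      refine Ideal.pow_right_mono ?_ _ (Ideal.map_pow (C (σ := σ)) (maximalIdeal O) (n + 1) ▸
        Ideal.mem_map_of_mem (C (σ := σ)) h0)
      refine Ideal.map_le_iff_le_comap.2 fun a ha => ?_
      rw [Ideal.mem_comap, mem_maximalIdeal, mem_nonunits_iff, isUnit_iff_constantCoeff,
        constantCoeff_C, ← mem_nonunits_iff, ← mem_maximalIdeal]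
      exact ha
    · rw [pow_succ']
      refine Ideal.mul_mem_mul ?_ (ih (hq i))
      rw [mem_maximalIdeal, mem_nonunits_iff, isUnit_iff_constantCoeff, constantCoeff_X]
      exact not_isUnit_zero

theorem pow_maximalIdeal_eq [Finite σ] (n : ℕ) :
    maximalIdeal (MvPowerSeries σ O) ^ n = weightIdeal O σ n :=
  le_antisymm (pow_maximalIdeal_le_weightIdeal n) (weightIdeal_le_pow_maximalIdeal n)

instance isAdicComplete_mvPowerSeries [Finite σ] [IsAdicComplete (maximalIdeal O) O] :
    IsAdicComplete (maximalIdeal (MvPowerSeries σ O)) (MvPowerSeries σ O) where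
  haus' f hf := by
    refine MvPowerSeries.ext fun m => ?_
    refine IsHausdorff.haus (I := maximalIdeal O) inferInstance _ fun k => ?_
    have := hf (k + m.degree)
    rw [SModEq.zero, smul_eq_mul, Ideal.mul_top, pow_maximalIdeal_eq] at this
    rw [SModEq.zero, smul_eq_mul, Ideal.mul_top]
    have h := this m
    rwa [Nat.add_sub_cancel] at h
  prec' f hf := by
    have hcoef : ∀ m : σ →₀ ℕ, ∃ L : O, ∀ k,
        coeff m (f (k + m.degree)) ≡ L [SMOD (maximalIdeal O ^ k • ⊤ : Submodule O O)] := by
      intro m
      refine IsPrecomplete.prec (I := maximalIdeal O) inferInstance fun {a b} hab => ?_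
      have := hf (Nat.add_le_add_right hab m.degree)
      rw [SModEq.sub_mem, smul_eq_mul, Ideal.mul_top, pow_maximalIdeal_eq] at this
      rw [SModEq.sub_mem, smul_eq_mul, Ideal.mul_top, ← map_sub]
      have h := this m
      rwa [Nat.add_sub_cancel] at h
    choose L hL using hcoef
    refine ⟨fun m => L m, fun n => ?_⟩
    rw [SModEq.sub_mem, smul_eq_mul, Ideal.mul_top, pow_maximalIdeal_eq]
    intro m
    rw [map_sub]
    show coeff m (f n) - L m ∈ _
    rcases le_or_gt n m.degree with h | h
    · rw [Nat.sub_eq_zero_of_le h, pow_zero, Ideal.one_eq_top]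
      trivial
    · have := hL m (n - m.degree)
      rw [Nat.sub_add_cancel h.le, SModEq.sub_mem, smul_eq_mul, Ideal.mul_top] at this
      exact this

end Fermat.Agent.RT.Patch
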