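import Fermat.Agent.RT.Patch.SeriesComplete
import Mathlib.CategoryTheory.CofilteredSystem
import Mathlib.CategoryTheory.Functor.OfSequence
import Mathlib.RingTheory.LocalRing.Quotient
import Mathlib.RingTheory.Ideal.Quotient.Index
import Mathlib.LinearAlgebra.Matrix.ToLin
import Mathlib.RingTheory.Artinian.Ring
import Mathlib.RingTheory.HopkinsLevitzki

/-!
# The limit step of patching

A compatible choice, level by level, of an action of `P` on `(S/𝔪ⁿ)^D`.
-/

set_option autoImplicit false

noncomputable section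

open IsLocalRing CategoryTheory

namespace Fermat.Agent.RT.Patch

/-- König's lemma for a sequence of finite nonempty types. -/
theorem exists_compatible_sequence (F : ℕ → Type) [∀ n, Finite (F n)] [∀ n, Nonempty (F n)]
    (r : ∀ n, F (n + 1) → F n) : ∃ s : ∀ n, F n, ∀ n, r n (s (n + 1)) = s n := by
  let G : ℕᵒᵖ ⥤ Type := Functor.ofOpSequence (X := F) fun n => ↾(r n)
  have : ∀ j : ℕᵒᵖ, Finite (G.obj j) := fun j => inferInstanceAs (Finite (F j.unop))
  have : ∀ j : ℕᵒᵖ, Nonempty (G.obj j) := fun j => inferInstanceAs (Nonempty (F j.unop))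
  obtain ⟨s, hs⟩ := nonempty_sections_of_finite_inverse_system G
  refine ⟨fun n => s (Opposite.op n), fun n => ?_⟩
  have h := hs (homOfLE (Nat.le_succ n)).op
  rw [Functor.ofOpSequence_map_homOfLE_succ] at h
  exact h

section

variable {P : Type} [CommRing P] [IsLocalRing P]

/-- A homomorphism from a local ring to a finite ring kills a uniform power of the maximal
ideal. -/
theorem pow_maximalIdeal_le_ker {R : Type*} [Ring R] [Finite R] (ρ : P →+* R) :
    maximalIdeal P ^ Nat.card R ≤ RingHom.ker ρ := by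
  set m := maximalIdeal P
  set N := Nat.card R
  let img : ℕ → Set R := fun k => ρ '' (m ^ k : Ideal P)
  have hanti : ∀ k, img (k + 1) ⊆ img k := fun k =>
    Set.image_mono (Ideal.pow_le_pow_right (Nat.le_succ k))
  obtain ⟨k, hk, hkeq⟩ : ∃ k ≤ N, img (k + 1) = img k := by
    by_contra! h
    have hcard : ∀ k ≤ N + 1, (img k).ncard + k ≤ N := by
      intro k hk
      induction k with
      | zero => simpa [N] using Set.ncard_le_card (img 0)
      | succ k ih =>
        have hlt : (img (k + 1)).ncard < (img k).ncard :=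
          Set.ncard_lt_ncard (lt_of_le_of_ne (hanti k) (h k (by omega))) (Set.toFinite _)
        have := ih (by omega)
        omega
    have := hcard (N + 1) le_rfl
    omega
  suffices hker : m ^ k ≤ RingHom.ker ρ from le_trans (Ideal.pow_le_pow_right hk) hker
  -- the quotient by the kernel is Artinian, so the image of `m ^ k` vanishes
  by_cases htop : RingHom.ker ρ = ⊤
  · rw [htop]; exact le_top
  have hkm : RingHom.ker ρ ≤ m := le_maximalIdeal htop
  have : Finite (P ⧸ RingHom.ker ρ) := Finite.of_injective _ (RingHom.kerLift_injective ρ)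
  have hk1 : m ^ k ≤ m ^ (k + 1) ⊔ RingHom.ker ρ := by
    intro x hx
    have : ρ x ∈ img (k + 1) := hkeq ▸ ⟨x, hx, rfl⟩
    obtain ⟨y, hy, hxy⟩ := this
    refine Submodule.mem_sup.2 ⟨y, hy, x - y, ?_, add_sub_cancel y x⟩
    rw [RingHom.mem_ker, map_sub, hxy, sub_self]
  have hall : ∀ l, m ^ k ≤ m ^ (k + l) ⊔ RingHom.ker ρ := by
    intro l
    induction l with
    | zero => exact le_sup_left
    | succ l ih =>
      refine ih.trans (sup_le ?_ le_sup_right)
      calc m ^ (k + l) = m ^ l * m ^ k := by rw [← pow_add, add_comm]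
        _ ≤ m ^ l * (m ^ (k + 1) ⊔ RingHom.ker ρ) := Ideal.mul_mono le_rfl hk1
        _ ≤ m ^ (k + (l + 1)) ⊔ RingHom.ker ρ := by
          rw [Ideal.mul_sup, ← pow_add]
          exact sup_le_sup (le_of_eq (by rw [show l + (k + 1) = k + (l + 1) by omega])) Ideal.mul_le_right
  have hloc : IsLocalRing (P ⧸ RingHom.ker ρ) := by
    have : Nontrivial (P ⧸ RingHom.ker ρ) := Ideal.Quotient.nontrivial_iff.2 htop
    exact IsLocalRing.of_surjective' _ Ideal.Quotient.mk_surjective
  obtain ⟨l, hl⟩ := IsArtinianRing.isNilpotent_jacobson_bot (R := P ⧸ RingHom.ker ρ)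
  refine (hall l).trans (sup_le ?_ le_rfl)
  refine (Ideal.pow_le_pow_right (Nat.le_add_left l k)).trans ?_
  rw [← Ideal.mk_ker (I := RingHom.ker ρ), ← Ideal.map_eq_bot_iff_le_ker, Ideal.map_pow]
  rw [Ideal.zero_eq_bot] at hl
  refine eq_bot_iff.2 (le_trans (Ideal.pow_right_mono ?_ _) (le_of_eq hl))
  rw [IsLocalRing.jacobson_eq_maximalIdeal _ bot_ne_top]
  exact Ideal.map_le_iff_le_comap.2 fun x hx => by
    rw [Ideal.mem_comap, mem_maximalIdeal, mem_nonunits_iff]
    intro hu
    obtain ⟨y, hy⟩ := hu.exists_right_inv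
    obtain ⟨y, rfl⟩ := Ideal.Quotient.mk_surjective y
    rw [← map_mul, ← map_one (Ideal.Quotient.mk (RingHom.ker ρ)), Ideal.Quotient.eq] at hy
    have h1 : x * y - 1 ∈ m := hkm hy
    have : (1 : P) ∈ m := by
      have := m.sub_mem (m.mul_mem_right y hx) h1
      rwa [sub_sub_cancel] at this
    exact (Ideal.ne_top_iff_one m).1 (Ideal.IsMaximal.ne_top inferInstance) this

variable [IsNoetherianRing P] [Finite (ResidueField P)]

instance finite_quotient_pow_maximalIdeal (n : ℕ) : Finite (P ⧸ maximalIdeal P ^ n) := by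
  have : Finite (P ⧸ maximalIdeal P) := inferInstanceAs (Finite (ResidueField P))
  exact Ideal.finite_quotient_pow (IsNoetherian.noetherian _) n

theorem finite_ringHom (R : Type*) [Ring R] [Finite R] : Finite (P →+* R) := by
  refine Finite.of_injective (β := P ⧸ maximalIdeal P ^ Nat.card R → R) (fun ρ =>
    ⇑(Ideal.Quotient.lift _ ρ fun x hx => RingHom.mem_ker.1 (pow_maximalIdeal_le_ker ρ hx))) ?_
  intro ρ ρ' h
  ext x
  simpa using congrFun h (Ideal.Quotient.mk _ x)

end

variable (S : Type) [CommRing S] [IsLocalRing S]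

/-- `S ⧸ 𝔪ⁿ`. -/
abbrev Lvl (n : ℕ) : Type := S ⧸ maximalIdeal S ^ n

/-- Reduction of levels. -/
def redLvl {m n : ℕ} (h : m ≤ n) : Lvl S n →+* Lvl S m :=
  Ideal.Quotient.factor (Ideal.pow_le_pow_right h)

theorem redLvl_mk {m n : ℕ} (h : m ≤ n) (s : S) :
    redLvl S h (Ideal.Quotient.mk _ s) = Ideal.Quotient.mk _ s :=
  Ideal.Quotient.factor_mk _ _

/-- Reduction of matrices to a level. -/
def matLvl (D n : ℕ) : Matrix (Fin D) (Fin D) S →+* Matrix (Fin D) (Fin D) (Lvl S n) :=
  (Ideal.Quotient.mk _).mapMatrix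

/-- Reduction of matrices between levels. -/
def matRed (D : ℕ) {m n : ℕ} (h : m ≤ n) :
    Matrix (Fin D) (Fin D) (Lvl S n) →+* Matrix (Fin D) (Fin D) (Lvl S m) :=
  (redLvl S h).mapMatrix

variable {S}

variable [IsAdicComplete (maximalIdeal S) S]

theorem eq_of_forall_mk {a b : S}
    (h : ∀ n, Ideal.Quotient.mk (maximalIdeal S ^ n) a = Ideal.Quotient.mk _ b) : a = b := by
  rw [← sub_eq_zero]
  refine IsHausdorff.haus (I := maximalIdeal S) inferInstance _ fun n => ?_
  rw [SModEq.zero, smul_eq_mul, Ideal.mul_top, ← Ideal.Quotient.eq]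
  exact h n

theorem exists_lift_of_compatible (x : ∀ n, Lvl S n)
    (hx : ∀ n, redLvl S (Nat.le_succ n) (x (n + 1)) = x n) :
    ∃ a : S, ∀ n, Ideal.Quotient.mk _ a = x n := by
  have hx' : ∀ m n (h : m ≤ n), redLvl S h (x n) = x m := by
    intro m n h
    induction n, h using Nat.le_induction with
    | base => obtain ⟨a, ha⟩ := Ideal.Quotient.mk_surjective (x m); rw [← ha, redLvl_mk]
    | succ n h ih =>
      rw [← ih, ← hx n]
      obtain ⟨a, ha⟩ := Ideal.Quotient.mk_surjective (x (n + 1))
      rw [← ha, redLvl_mk, redLvl_mk, redLvl_mk]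
  choose a ha using fun n => Ideal.Quotient.mk_surjective (x n)
  obtain ⟨L, hL⟩ := IsPrecomplete.prec (I := maximalIdeal S) inferInstance (f := a)
    fun {m n} hmn => by
      rw [SModEq.sub_mem, smul_eq_mul, Ideal.mul_top, ← Ideal.Quotient.eq, ha m, ← hx' m n hmn,
        ← ha n, redLvl_mk]
  refine ⟨L, fun n => ?_⟩
  have := hL n
  rw [SModEq.sub_mem, smul_eq_mul, Ideal.mul_top, ← Ideal.Quotient.eq] at this
  rw [← this, ha]

variable {P : Type} [CommRing P] [IsLocalRing P] [IsNoetherianRing P] [Finite (ResidueField P)]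
  [IsNoetherianRing S] [Finite (ResidueField S)]

/-- The patching limit: given at every level a nonempty, reduction-stable set of actions of `P`,
there is an action on `S^D` all of whose reductions lie in these sets. -/
theorem exists_limit (D : ℕ) (C : ∀ n, Set (P →+* Matrix (Fin D) (Fin D) (Lvl S n)))
    (hne : ∀ n, (C n).Nonempty)
    (hred : ∀ n, ∀ ρ ∈ C (n + 1), (matRed S D (Nat.le_succ n)).comp ρ ∈ C n) :
    ∃ ρ : P →+* Matrix (Fin D) (Fin D) S, ∀ n, (matLvl S D n).comp ρ ∈ C n := by
  have hfin : ∀ n, Finite (C n) := fun n => by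
    have := finite_ringHom (P := P) (Matrix (Fin D) (Fin D) (Lvl S n))
    exact Subtype.finite
  have : ∀ n, Nonempty (C n) := fun n => (hne n).to_subtype
  obtain ⟨s, hs⟩ := exists_compatible_sequence (fun n => C n) fun n ρ => ⟨_, hred n ρ.1 ρ.2⟩
  have hlift : ∀ (f : P) (i j : Fin D), ∃ a : S, ∀ n, Ideal.Quotient.mk _ a = (s n).1 f i j := by
    intro f i j
    refine exists_lift_of_compatible _ fun n => ?_
    conv_rhs => rw [← hs n]
    rfl
  choose a ha using hlift
  have hM : ∀ f n, matLvl S D n (fun i j => a f i j) = (s n).1 f := fun f n =>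
    Matrix.ext fun i j => ha f i j n
  have hinj : ∀ M M' : Matrix (Fin D) (Fin D) S, (∀ n, matLvl S D n M = matLvl S D n M') → M = M' :=
    fun M M' h => Matrix.ext fun i j => eq_of_forall_mk fun n => congrFun (congrFun (h n) i) j
  let ρ : P →+* Matrix (Fin D) (Fin D) S :=
    { toFun := fun f i j => a f i j
      map_one' := hinj _ _ fun n => by rw [hM, map_one, map_one]
      map_mul' := fun f g => hinj _ _ fun n => by rw [hM, map_mul, map_mul, hM, hM]
      map_zero' := hinj _ _ fun n => by rw [hM, map_zero, map_zero]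
      map_add' := fun f g => hinj _ _ fun n => by rw [hM, map_add, map_add, hM, hM] }
  refine ⟨ρ, fun n => ?_⟩
  have : (matLvl S D n).comp ρ = (s n).1 := RingHom.ext fun f => hM f n
  rw [this]
  exact (s n).2

/-- If at every level the scalar `c` is in the image of the action, it is in the image of the
limit action. -/
theorem exists_preimage_scalar [IsAdicComplete (maximalIdeal P) P] {D : ℕ}
    (ρ : P →+* Matrix (Fin D) (Fin D) S) (c : S)
    (h : ∀ n, ∃ f : P, matLvl S D n (ρ f) = matLvl S D n (Matrix.scalar (Fin D) c)) :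
    ∃ f : P, ρ f = Matrix.scalar (Fin D) c := by
  let N : ℕ → ℕ := fun n =>
    n + ∑ m ∈ Finset.range (n + 1), Nat.card (Matrix (Fin D) (Fin D) (Lvl S m))
  have hNmono : ∀ n, N n ≤ N (n + 1) := fun n => by
    have := Finset.sum_range_succ (fun m => Nat.card (Matrix (Fin D) (Fin D) (Lvl S m))) (n + 1)
    simp only [N]
    omega
  have hker : ∀ n, maximalIdeal P ^ N n ≤ RingHom.ker ((matLvl S D n).comp ρ) := fun n => by
    refine le_trans (Ideal.pow_le_pow_right ?_) (pow_maximalIdeal_le_ker _)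
    have := Finset.single_le_sum (f := fun m => Nat.card (Matrix (Fin D) (Fin D) (Lvl S m)))
      (fun i _ => Nat.zero_le _) (Finset.self_mem_range_succ n)
    simp only [N]
    omega
  let F : ℕ → Type := fun n => {a : Lvl P (N n) //
    ∀ f : P, Ideal.Quotient.mk _ f = a → matLvl S D n (ρ f) = matLvl S D n (Matrix.scalar _ c)}
  have : ∀ n, Nonempty (F n) := fun n => by
    obtain ⟨f, hf⟩ := h n
    refine ⟨⟨Ideal.Quotient.mk _ f, fun g hg => ?_⟩⟩
    rw [← hf, ← sub_eq_zero, ← map_sub, ← map_sub]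
    exact RingHom.mem_ker.1 (hker n (Ideal.Quotient.eq.1 hg))
  have : ∀ n, Finite (F n) := fun n => Subtype.finite
  let r : ∀ n, F (n + 1) → F n := fun n a => ⟨redLvl P (hNmono n) a.1, fun f hf => by
    obtain ⟨g, hg⟩ := Ideal.Quotient.mk_surjective a.1
    have h1 := a.2 g hg
    rw [← hg, redLvl_mk, Ideal.Quotient.eq] at hf
    have h2 : matLvl S D n (ρ f) = matLvl S D n (ρ g) := by
      rw [← sub_eq_zero, ← map_sub, ← map_sub]
      exact RingHom.mem_ker.1 (hker n hf)
    rw [h2]
    have := congrArg (matRed S D (Nat.le_succ n)) h1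
    exact this⟩
  obtain ⟨s, hs⟩ := exists_compatible_sequence F r
  -- pass from the indices `N n ≥ n` to a compatible family modulo `𝔪_Pⁿ`
  obtain ⟨f, hf⟩ := exists_lift_of_compatible (S := P)
    (fun n => redLvl P (Nat.le_add_right n _) (s n).1) fun n => by
      have := congrArg Subtype.val (hs n)
      obtain ⟨g, hg⟩ := Ideal.Quotient.mk_surjective (s (n + 1)).1
      rw [← this, ← hg]
      show redLvl P (Nat.le_succ n) (redLvl P _ (Ideal.Quotient.mk _ g)) =
        redLvl P _ (redLvl P (hNmono n) (s (n + 1)).1)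
      rw [← hg, redLvl_mk, redLvl_mk, redLvl_mk, redLvl_mk]
  refine ⟨f, Matrix.ext fun i j => eq_of_forall_mk fun n => ?_⟩
  -- work at a level `M ≥ N n`
  obtain ⟨g, hg⟩ := Ideal.Quotient.mk_surjective (s (N n)).1
  have h1 := (s (N n)).2 g hg
  have h2 : f - g ∈ maximalIdeal P ^ N n := by
    have := hf (N n)
    rwa [← hg, redLvl_mk, Ideal.Quotient.eq] at this
  have h3 : matLvl S D n (ρ f) = matLvl S D n (ρ g) := by
    rw [← sub_eq_zero, ← map_sub, ← map_sub]
    exact RingHom.mem_ker.1 (hker n h2)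
  have h4 := congrArg (matRed S D (show n ≤ N n from Nat.le_add_right n _)) h1
  exact congrFun (congrFun (h3.trans h4) i) j

end Fermat.Agent.RT.Patch
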