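import Fermat.Agent.RT.Patch.Support
import Fermat.Agent.RT.Patch.Limit
import Fermat.Agent.RT.Generators
import Mathlib.RingTheory.MvPowerSeries.Trunc
import Mathlib.RingTheory.MvPowerSeries.NoZeroDivisors

/-!
# Patching (blueprint, part 6)

`O` is the base, `S = O⟦Y₁,…,Y_d⟧` the auxiliary ring and `P` the ring of local coordinates. At
every level `n` we are given an action of `P` on `(S/𝔪ⁿ)^D` such that every `Y_i` lies in the
image, the loci `K i` kill it and `g₀` maps it into `ϖ` times itself. Then `g₀` lies in the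
special prime `Q₀`.
-/

set_option autoImplicit false

noncomputable section

open IsLocalRing

namespace Fermat.Agent.RT.Patch

variable {O : Type} [CommRing O] [IsDomain O] [IsLocalRing O] [IsNoetherianRing O]
  [IsAdicComplete (maximalIdeal O) O] [Finite (ResidueField O)]
  {d : ℕ} {P : Type} [CommRing P] [IsLocalRing P] [IsNoetherianRing P]
  [IsAdicComplete (maximalIdeal P) P] [Finite (ResidueField P)]
  [Algebra O P] [IsLocalHom (algebraMap O P)]

omit [IsDomain O] [IsNoetherianRing O] [IsAdicComplete (maximalIdeal O) O] in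
instance finite_residueField_mvPowerSeries :
    Finite (ResidueField (MvPowerSeries (Fin d) O)) := by
  refine Finite.of_surjective (α := ResidueField O)
    (Ideal.Quotient.lift _ ((residue (MvPowerSeries (Fin d) O)).comp MvPowerSeries.C) ?_) ?_
  · intro a ha
    rw [RingHom.comp_apply, residue_eq_zero_iff, mem_maximalIdeal, mem_nonunits_iff,
      MvPowerSeries.isUnit_iff_constantCoeff, MvPowerSeries.constantCoeff_C, ← mem_nonunits_iff,
      ← mem_maximalIdeal]
    exact ha
  · intro x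
    obtain ⟨f, rfl⟩ := residue_surjective x
    refine ⟨residue O (MvPowerSeries.constantCoeff f), ?_⟩
    show residue _ (MvPowerSeries.C (MvPowerSeries.constantCoeff f)) = residue _ f
    rw [← sub_eq_zero, ← map_sub, residue_eq_zero_iff, mem_maximalIdeal, mem_nonunits_iff,
      MvPowerSeries.isUnit_iff_constantCoeff, map_sub, MvPowerSeries.constantCoeff_C, sub_self]
    exact not_isUnit_zero

omit [IsDomain O] [IsNoetherianRing O] [IsAdicComplete (maximalIdeal O) O]
  [Finite (ResidueField O)] in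
theorem sub_truncTotal_mem (n : ℕ) (s : MvPowerSeries (Fin d) O) :
    s - (MvPowerSeries.truncTotal n s : MvPowerSeries (Fin d) O) ∈
      maximalIdeal (MvPowerSeries (Fin d) O) ^ n := by
  rw [pow_maximalIdeal_eq]
  intro m
  rw [map_sub, MvPolynomial.coeff_coe]
  rcases lt_or_ge m.degree n with h | h
  · rw [MvPowerSeries.coeff_truncTotal _ h]
    simp
  · rw [Nat.sub_eq_zero_of_le h, pow_zero, Ideal.one_eq_top]
    trivial

local notation "𝕊" => MvPowerSeries (Fin d) O

omit [IsDomain O] [IsNoetherianRing O] [IsAdicComplete (maximalIdeal O) O] in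
/-- Two homomorphisms to a finite ring agreeing on constants and variables agree. -/
theorem ringHom_ext_of_finite {R : Type*} [Ring R] [Finite R] (f g : 𝕊 →+* R)
    (hC : ∀ a : O, f (MvPowerSeries.C a) = g (MvPowerSeries.C a))
    (hX : ∀ i, f (MvPowerSeries.X i) = g (MvPowerSeries.X i)) : f = g := by
  have hpoly : ∀ p : MvPolynomial (Fin d) O, f (p : 𝕊) = g (p : 𝕊) := by
    intro p
    induction p using MvPolynomial.induction_on with
    | C a => simpa using hC a
    | add p q hp hq => rw [MvPolynomial.coe_add, map_add, map_add, hp, hq]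
    | mul_X p i hp => rw [MvPolynomial.coe_mul, MvPolynomial.coe_X, map_mul, map_mul, hp, hX]
  ext s
  have h := sub_truncTotal_mem (Nat.card R) s
  have hf := RingHom.mem_ker.1 (pow_maximalIdeal_le_ker f h)
  have hg := RingHom.mem_ker.1 (pow_maximalIdeal_le_ker g h)
  rw [map_sub, sub_eq_zero] at hf hg
  rw [hf, hg, hpoly]

/-- The data required of the action at level `n`. -/
structure IsLevel {ι : Type} (ϖ : O) (K : ι → Ideal P) (g₀ : P) (n D : ℕ)
    (ρ : P →+* Matrix (Fin D) (Fin D) (Lvl 𝕊 n)) : Prop where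
  scalar : ∀ a : O, ρ (algebraMap O P a) =
    Matrix.scalar (Fin D) (Ideal.Quotient.mk _ (MvPowerSeries.C a))
  exists_lift : ∀ i, ∃ f : P, ρ f =
    Matrix.scalar (Fin D) (Ideal.Quotient.mk _ (MvPowerSeries.X i))
  kills : ∀ f ∈ ⨅ j, K j, ρ f = 0
  divisible : ∃ B, ρ g₀ = ρ (algebraMap O P ϖ) * B

omit [IsDomain O] [IsNoetherianRing O] [IsAdicComplete (maximalIdeal O) O]
  [Finite (ResidueField O)] [IsLocalRing P] [IsNoetherianRing P]
  [IsAdicComplete (maximalIdeal P) P] [Finite (ResidueField P)] [IsLocalHom (algebraMap O P)] in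
theorem IsLevel.reduce {ι : Type} {ϖ : O} {K : ι → Ideal P} {g₀ : P} {n D : ℕ}
    {ρ : P →+* Matrix (Fin D) (Fin D) (Lvl 𝕊 (n + 1))} (h : IsLevel ϖ K g₀ (n + 1) D ρ) :
    IsLevel ϖ K g₀ n D ((matRed 𝕊 D (Nat.le_succ n)).comp ρ) := by
  have hs : ∀ s : 𝕊, matRed 𝕊 D (Nat.le_succ n)
      (Matrix.scalar (Fin D) (Ideal.Quotient.mk _ s)) =
        Matrix.scalar (Fin D) (Ideal.Quotient.mk _ s) := fun s => by
    refine (Matrix.diagonal_map (map_zero (redLvl 𝕊 (Nat.le_succ n)))).trans ?_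
    rw [Matrix.scalar_apply]
    rfl
  refine ⟨fun a => ?_, fun i => ?_, fun f hf => ?_, ?_⟩
  · rw [RingHom.comp_apply, h.scalar, hs]
  · obtain ⟨f, hf⟩ := h.exists_lift i
    exact ⟨f, by rw [RingHom.comp_apply, hf, hs]⟩
  · rw [RingHom.comp_apply, h.kills f hf, map_zero]
  · obtain ⟨B, hB⟩ := h.divisible
    exact ⟨matRed 𝕊 D (Nat.le_succ n) B, by rw [RingHom.comp_apply, hB, map_mul]; rfl⟩

/-- Patching: levels with loci of dimension `dim S` force `g₀` into the special prime. -/
theorem false_of_levels {ι : Type} [Fintype ι] (ϖ : O) {D : ℕ} [NeZero D]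
    (K : ι → Ideal P) [∀ j, (K j).IsPrime]
    (hK : ∀ j, ∃ ψ : 𝕊 →+* P ⧸ K j, ψ.IsIntegral)
    (Q₀ : Ideal P) [Q₀.IsPrime] (hϖ : algebraMap O P ϖ ∈ Q₀) (hQ₀ : ∀ j, K j ≤ Q₀)
    (g₀ : P) (hg₀ : g₀ ∉ Q₀)
    (hlev : ∀ n, ∃ ρ, IsLevel (d := d) ϖ K g₀ n D ρ) : False := by
  obtain ⟨ρ, hρ⟩ := exists_limit (S := 𝕊) (P := P) D
    (fun n => {ρ | IsLevel ϖ K g₀ n D ρ}) hlev fun n ρ h => h.reduce
  have hinj : ∀ M M' : Matrix (Fin D) (Fin D) 𝕊,
      (∀ n, matLvl 𝕊 D n M = matLvl 𝕊 D n M') → M = M' :=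
    fun M M' h => Matrix.ext fun i j => eq_of_forall_mk fun n => congrFun (congrFun (h n) i) j
  have hsc : ∀ n (s : 𝕊), matLvl 𝕊 D n (Matrix.scalar (Fin D) s) =
      Matrix.scalar (Fin D) (Ideal.Quotient.mk _ s) := fun n s => by
    refine (Matrix.diagonal_map (map_zero (Ideal.Quotient.mk _))).trans ?_
    rw [Matrix.scalar_apply]
    rfl
  -- lifts of the auxiliary variables
  have hy : ∀ i, ∃ f : P, ρ f = Matrix.scalar (Fin D) (MvPowerSeries.X i : 𝕊) := fun i =>
    exists_preimage_scalar ρ _ fun n => by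
      obtain ⟨f, hf⟩ := (hρ n).exists_lift i
      exact ⟨f, hf.trans (hsc n _).symm⟩
  choose y hy using hy
  have hyM : ∀ i, y i ∈ maximalIdeal P := by
    intro i
    rw [mem_maximalIdeal, mem_nonunits_iff]
    intro hu
    have h1 := ((Matrix.isUnit_iff_isUnit_det _).1 (hy i ▸ hu.map ρ))
    rw [Matrix.scalar_apply, Matrix.det_diagonal, Finset.prod_const, Finset.card_univ,
      Fintype.card_fin, isUnit_pow_iff (NeZero.ne D), MvPowerSeries.isUnit_iff_constantCoeff,
      MvPowerSeries.constantCoeff_X] at h1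
    exact not_isUnit_zero h1
  obtain ⟨φ, hφX⟩ := exists_eval (L := O) y hyM
  -- `ρ ∘ φ` is scalar multiplication
  have hρφ : ∀ s : 𝕊, ρ (φ s) = Matrix.scalar (Fin D) s := by
    intro s
    refine hinj _ _ fun n => ?_
    have := ringHom_ext_of_finite (((matLvl 𝕊 D n).comp ρ).comp φ.toRingHom)
      ((Matrix.scalar (Fin D)).comp (Ideal.Quotient.mk (maximalIdeal 𝕊 ^ n))) (fun a => ?_)
      (fun i => ?_)
    · rw [hsc]
      exact RingHom.congr_fun this s
    · simp only [RingHom.comp_apply, AlgHom.toRingHom_eq_coe, RingHom.coe_coe]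
      rw [show φ (MvPowerSeries.C a) = algebraMap O P a from φ.commutes a]
      exact (hρ n).scalar a
    · simp only [RingHom.comp_apply, AlgHom.toRingHom_eq_coe, RingHom.coe_coe]
      rw [hφX, hy, hsc]
  -- the patched module
  let act : P →+* Module.End 𝕊 (Fin D → 𝕊) :=
    (Matrix.toLinAlgEquiv' : Matrix (Fin D) (Fin D) 𝕊 ≃ₐ[𝕊] _).toRingEquiv.toRingHom.comp ρ
  let _ : Module P (Fin D → 𝕊) := Module.compHom _ act
  have hsmul : ∀ (f : P) (x : Fin D → 𝕊), f • x = (ρ f).mulVec x := fun f x => rfl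
  have : SMulCommClass 𝕊 P (Fin D → 𝕊) := ⟨fun s f x => by
    rw [hsmul, hsmul, Matrix.mulVec_smul]⟩
  have : IsDomain 𝕊 := NoZeroDivisors.to_isDomain _
  refine false_of_patched (X := Fin D → 𝕊) φ.toRingHom (fun s x => ?_) K hK ?_ Q₀
    (algebraMap O P ϖ) hϖ hQ₀ g₀ (fun x => ?_) hg₀
  · rw [hsmul]
    show (ρ (φ s)).mulVec x = s • x
    rw [hρφ, Matrix.scalar_apply]
    ext i
    rw [Matrix.mulVec_diagonal, Pi.smul_apply, smul_eq_mul]
  · intro f hf
    refine Module.mem_annihilator.2 fun x => ?_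
    have : ρ f = 0 := hinj _ _ fun n => by
      rw [map_zero]
      exact (hρ n).kills f hf
    rw [hsmul, this, Matrix.zero_mulVec]
  · -- divisibility by `ϖ` passes to the limit
    have hdiv : ∀ i j, ρ g₀ i j ∈ Ideal.span {(MvPowerSeries.C ϖ : 𝕊)} := by
      intro i j
      set I := Ideal.span {(MvPowerSeries.C ϖ : 𝕊)}
      have hn : ∀ n, ρ g₀ i j ∈ I ⊔ maximalIdeal 𝕊 ^ n := by
        intro n
        obtain ⟨B, hB⟩ := (hρ n).divisible
        rw [(hρ n).scalar] at hB
        have h := congrFun (congrFun hB i) j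
        rw [Matrix.scalar_apply, Matrix.diagonal_mul] at h
        obtain ⟨b, hb⟩ := Ideal.Quotient.mk_surjective (B i j)
        rw [← hb, ← map_mul] at h
        have h' : Ideal.Quotient.mk (maximalIdeal 𝕊 ^ n) (ρ g₀ i j) =
          Ideal.Quotient.mk _ (MvPowerSeries.C ϖ * b) := h
        rw [Ideal.Quotient.eq] at h'
        exact Submodule.mem_sup.2
          ⟨_, I.mul_mem_right b (Ideal.mem_span_singleton_self _), _, h', by ring⟩
      rw [← Ideal.Quotient.eq_zero_iff_mem]
      refine IsHausdorff.haus (I := maximalIdeal 𝕊) (M := 𝕊 ⧸ I) inferInstance _ fun n => ?_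
      rw [SModEq.zero]
      obtain ⟨a, ha, b, hb, hab⟩ := Submodule.mem_sup.1 (hn n)
      rw [← hab, map_add, Ideal.Quotient.eq_zero_iff_mem.2 ha, zero_add,
        show Ideal.Quotient.mk I b = b • (1 : 𝕊 ⧸ I) from by
          show Ideal.Quotient.mk I b = Ideal.Quotient.mk I (b * 1)
          rw [mul_one]]
      exact Submodule.smul_mem_smul hb trivial
    choose B hB using fun i j => Ideal.mem_span_singleton'.1 (hdiv i j)
    refine ⟨(Matrix.of B).mulVec x, ?_⟩
    have hϖρ : ρ (algebraMap O P ϖ) = Matrix.scalar (Fin D) (MvPowerSeries.C ϖ : 𝕊) :=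
      hinj _ _ fun n => by rw [hsc]; exact (hρ n).scalar ϖ
    rw [hsmul, hsmul, hϖρ, Matrix.mulVec_mulVec]
    congr 1
    ext i j
    rw [Matrix.scalar_apply, Matrix.diagonal_mul, Matrix.of_apply, mul_comm, hB]

end Fermat.Agent.RT.Patch
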