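import Mathlib.RingTheory.Ideal.GoingUp
import Mathlib.RingTheory.KrullDimension.NonZeroDivisors
import Mathlib.RingTheory.Ideal.KrullsHeightTheorem

/-!
# Krull dimension of integral extensions

An injective integral extension has the same Krull dimension, and a proper prime quotient of a
Noetherian local domain has smaller dimension.
-/

set_option autoImplicit false

namespace Fermat.Agent.RT.Patch

variable {A B : Type*} [CommRing A] [CommRing B]

theorem exists_ltSeries_lift [Algebra A B] [Algebra.IsIntegral A B]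
    (hinj : Function.Injective (algebraMap A B)) (n : ℕ) :
    ∀ l : LTSeries (PrimeSpectrum A), l.length = n →
      ∃ l' : LTSeries (PrimeSpectrum B), l'.length = n ∧
        l'.last.asIdeal.comap (algebraMap A B) = l.last.asIdeal := by
  induction n with
  | zero =>
    intro l _
    have := l.last.isPrime
    obtain ⟨Q, -, hQ, hQc⟩ := Ideal.exists_ideal_over_prime_of_isIntegral l.last.asIdeal
      (⊥ : Ideal B) (by
        rw [← RingHom.ker_eq_comap_bot, (RingHom.injective_iff_ker_eq_bot _).1 hinj]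
        exact bot_le)
    exact ⟨RelSeries.singleton _ ⟨Q, hQ⟩, rfl, hQc⟩
  | succ n ih =>
    intro l hl
    obtain ⟨l', hl', hlast⟩ := ih l.eraseLast (by simp [hl])
    have hlt : l.eraseLast.last < l.last :=
      l.eraseLast_last_rel_last (by simp [hl])
    have := l.last.isPrime
    have := l'.last.isPrime
    obtain ⟨Q, hQge, hQ, hQc⟩ := Ideal.exists_ideal_over_prime_of_isIntegral_of_isPrime
      l.last.asIdeal l'.last.asIdeal (hlast ▸ hlt.le)
    have hQlt : l'.last < ⟨Q, hQ⟩ := by
      refine lt_of_le_of_ne hQge fun h => hlt.ne (PrimeSpectrum.ext ?_)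
      rw [← hQc, ← hlast, h]
    exact ⟨l'.snoc ⟨Q, hQ⟩ hQlt, by simp [hl'], by simpa using hQc⟩

theorem ringKrullDim_eq_of_integral [Algebra A B] [Algebra.IsIntegral A B]
    (hinj : Function.Injective (algebraMap A B)) : ringKrullDim B = ringKrullDim A := by
  refine le_antisymm (Order.krullDim_le_of_strictMono
    (fun Q : PrimeSpectrum B => (⟨Q.asIdeal.comap (algebraMap A B), inferInstance⟩ : PrimeSpectrum A))
    fun Q Q' h => ?_) ?_
  · exact Ideal.IsIntegral.comap_lt_comap (show Q.asIdeal < Q'.asIdeal from h)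
  · refine iSup_le fun l => ?_
    obtain ⟨l', hl', -⟩ := exists_ltSeries_lift hinj l.length l rfl
    exact le_iSup_of_le l' (by rw [hl'])

theorem ringKrullDim_quotient_lt [IsDomain A] [IsLocalRing A] [IsNoetherianRing A] {p : Ideal A}
    [p.IsPrime] (hp : p ≠ ⊥) : ringKrullDim (A ⧸ p) < ringKrullDim A := by
  obtain ⟨r, hrp, hr0⟩ := Submodule.exists_mem_ne_zero_of_ne_bot hp
  have h1 : ringKrullDim (A ⧸ p) + 1 ≤ ringKrullDim A := by
    refine ringKrullDim_succ_le_of_surjective (r := r) (Ideal.Quotient.mk p)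
      Ideal.Quotient.mk_surjective (mem_nonZeroDivisors_of_ne_zero hr0) ?_
    rwa [Ideal.Quotient.eq_zero_iff_mem]
  have hfin : ringKrullDim A < ⊤ := ringKrullDim_lt_top
  have hnn : (0 : WithBot ℕ∞) ≤ ringKrullDim (A ⧸ p) := ringKrullDim_nonneg_of_nontrivial
  obtain ⟨n, hn⟩ := WithBot.ne_bot_iff_exists.1 (show ringKrullDim (A ⧸ p) ≠ ⊥ from
    fun h => by rw [h] at hnn; exact absurd hnn (by simp))
  rw [← hn] at h1 ⊢
  refine lt_of_lt_of_le ?_ h1
  have hne : n ≠ ⊤ := by
    rintro rfl
    exact absurd (h1.trans_lt hfin) (by rw [← WithBot.coe_one, ← WithBot.coe_add, top_add]; exact lt_irrefl _)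
  rw [← WithBot.coe_one, ← WithBot.coe_add]
  exact WithBot.coe_lt_coe.2 ((ENat.lt_add_one_iff hne).2 le_rfl)

end Fermat.Agent.RT.Patch
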