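import Fermat.Agent.RT.Patch.IntegralDim
import Mathlib.LinearAlgebra.Matrix.Charpoly.LinearMap
import Mathlib.RingTheory.Finiteness.Basic
import Mathlib.LinearAlgebra.FreeModule.Basic

/-!
# The support argument after patching (blueprint, part 6)

`S` is the ring of auxiliary variables, `P` the ring of local coordinates and `X` the patched
module of nontrivial type. Every point of `X` lies on one of finitely many parametrised loci
`K i`, each of the dimension of `S`; one of them is therefore a whole component of the support of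
`X`, hence contains the special prime `Q₀ ∋ p`. So no element outside `Q₀` maps `X` into `pX`.
-/

set_option autoImplicit false

open Module

namespace Fermat.Agent.RT.Patch

variable {S : Type*} [CommRing S] [IsDomain S] [IsLocalRing S] [IsNoetherianRing S]
  {P : Type*} [CommRing P]
  {X : Type*} [AddCommGroup X] [Module S X] [Module P X]

/-- A prime of `P` above the annihilator of `X` whose quotient is an injective integral
extension of `S`. -/
theorem exists_dominant_prime [Module.Finite S X] [Module.Free S X] [Nontrivial X]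
    [SMulCommClass S P X] (φ : S →+* P) (hφ : ∀ (s : S) (x : X), φ s • x = s • x) :
    ∃ Q : Ideal P, Q.IsPrime ∧ Module.annihilator P X ≤ Q ∧
      ((Ideal.Quotient.mk Q).comp φ).IsIntegral ∧
      Function.Injective ((Ideal.Quotient.mk Q).comp φ) := by
  set I := Module.annihilator P X with hI
  have := SMulCommClass.symm S P X
  let : Algebra S (P ⧸ I) := ((Ideal.Quotient.mk I).comp φ).toAlgebra
  have halg : ∀ s, algebraMap S (P ⧸ I) s = Ideal.Quotient.mk I (φ s) := fun s => rfl
  -- `P ⧸ I` embeds `S`-linearly in `End_S X`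
  let e₀ : P →+ Module.End S X :=
    { toFun := fun a =>
        { toFun := fun x => a • x
          map_add' := smul_add a
          map_smul' := fun s x => (smul_comm a s x) }
      map_zero' := by ext; simp
      map_add' := fun a b => by ext; simp [add_smul] }
  have hker : ∀ a ∈ I.toAddSubgroup, e₀ a = 0 := fun a ha => LinearMap.ext fun x =>
    Module.mem_annihilator.1 ha x
  let e : (P ⧸ I) →ₗ[S] Module.End S X :=
    { toFun := QuotientAddGroup.lift I.toAddSubgroup e₀ hker
      map_add' := map_add _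
      map_smul' := fun s a => by
        obtain ⟨a, rfl⟩ := Ideal.Quotient.mk_surjective a
        rw [Algebra.smul_def, halg, ← map_mul]
        ext x
        show (φ s * a) • x = s • a • x
        rw [mul_smul, hφ] }
  have he : Function.Injective e := by
    refine (injective_iff_map_eq_zero e).2 fun a ha => ?_
    obtain ⟨a, rfl⟩ := Ideal.Quotient.mk_surjective a
    refine Ideal.Quotient.eq_zero_iff_mem.2 (Module.mem_annihilator.2 fun x => ?_)
    exact LinearMap.congr_fun ha x
  have : Module.Finite S (P ⧸ I) := Module.Finite.of_injective e he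
  have : Algebra.IsIntegral S (P ⧸ I) := Algebra.IsIntegral.of_finite S _
  have hinj : Function.Injective (algebraMap S (P ⧸ I)) := by
    refine (injective_iff_map_eq_zero _).2 fun s hs => ?_
    rw [halg, Ideal.Quotient.eq_zero_iff_mem] at hs
    obtain ⟨x, hx⟩ := exists_ne (0 : X)
    have := Module.mem_annihilator.1 hs x
    rw [hφ] at this
    exact (smul_eq_zero.1 this).resolve_right hx
  obtain ⟨Q', -, hQ', hQc⟩ := Ideal.exists_ideal_over_prime_of_isIntegral (⊥ : Ideal S)
    (⊥ : Ideal (P ⧸ I)) (by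
      rw [← RingHom.ker_eq_comap_bot, (RingHom.injective_iff_ker_eq_bot _).1 hinj])
  refine ⟨Q'.comap (Ideal.Quotient.mk I), Ideal.comap_isPrime _ _, fun a ha => ?_, ?_, ?_⟩
  · rw [Ideal.mem_comap, Ideal.Quotient.eq_zero_iff_mem.2 ha]
    exact Q'.zero_mem
  · intro b
    obtain ⟨b, rfl⟩ := Ideal.Quotient.mk_surjective b
    obtain ⟨q, hq, hq0⟩ := Algebra.IsIntegral.isIntegral (R := S) (Ideal.Quotient.mk I b)
    refine ⟨q, hq, ?_⟩
    rw [← Polynomial.hom_eval₂, Ideal.Quotient.eq_zero_iff_mem, Ideal.mem_comap,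
      Polynomial.hom_eval₂]
    show Polynomial.eval₂ (algebraMap S (P ⧸ I)) _ q ∈ Q'
    rw [hq0]
    exact Q'.zero_mem
  · refine (injective_iff_map_eq_zero _).2 fun s hs => ?_
    rw [RingHom.comp_apply, Ideal.Quotient.eq_zero_iff_mem, Ideal.mem_comap, ← halg] at hs
    have : s ∈ Q'.comap (algebraMap S (P ⧸ I)) := hs
    rwa [hQc, Ideal.mem_bot] at this

variable {ι : Type*} [Fintype ι]

/-- The final step of the patching argument. -/
theorem false_of_patched [Module.Finite S X] [Module.Free S X] [Nontrivial X]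
    [SMulCommClass S P X]
    (φ : S →+* P) (hφ : ∀ (s : S) (x : X), φ s • x = s • x)
    (K : ι → Ideal P) [∀ i, (K i).IsPrime]
    (hK : ∀ i, ∃ ψ : S →+* P ⧸ K i, ψ.IsIntegral)
    (hsupp : (⨅ i, K i) ≤ Module.annihilator P X)
    (Q₀ : Ideal P) [Q₀.IsPrime] (p : P) (hp : p ∈ Q₀) (hQ₀ : ∀ i, K i ≤ Q₀)
    (g₀ : P) (hg₀ : ∀ x : X, ∃ x' : X, g₀ • x = p • x') (hgQ : g₀ ∉ Q₀) : False := by
  obtain ⟨Q, hQ, hann, hint, hinj⟩ := exists_dominant_prime (X := X) φ hφ
  have hprod : (∏ i, K i) ≤ Q := by
    refine le_trans ?_ (hsupp.trans hann)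
    exact le_iInf fun i => Ideal.prod_le_inf.trans (Finset.inf_le (Finset.mem_univ i))
  obtain ⟨i, -, hi⟩ := (Ideal.IsPrime.prod_le hQ).1 hprod
  have hQK : Q = K i := by
    refine le_antisymm ?_ hi
    obtain ⟨ψ, hψint⟩ := hK i
    let g : P ⧸ K i →+* P ⧸ Q := Ideal.Quotient.factor hi
    have hg : Function.Surjective g := Ideal.Quotient.factor_surjective hi
    set 𝔭 := RingHom.ker (g.comp ψ) with h𝔭
    have : 𝔭.IsPrime := RingHom.ker_isPrime _
    have hbot : 𝔭 = ⊥ := by
      by_contra hne
      have hlt := ringKrullDim_quotient_lt hne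
      let : Algebra S (P ⧸ Q) := ((Ideal.Quotient.mk Q).comp φ).toAlgebra
      have : Algebra.IsIntegral S (P ⧸ Q) := ⟨hint⟩
      have e1 : ringKrullDim (P ⧸ Q) = ringKrullDim S := ringKrullDim_eq_of_integral hinj
      have hint2 : (g.comp ψ).IsIntegral :=
        RingHom.IsIntegral.trans _ _ hψint (g.isIntegral_of_surjective hg)
      let h : S ⧸ 𝔭 →+* P ⧸ Q := RingHom.kerLift (g.comp ψ)
      have hh : h.comp (Ideal.Quotient.mk 𝔭) = g.comp ψ := RingHom.ext fun s => rfl
      have hint3 : h.IsIntegral := RingHom.IsIntegral.tower_top (Ideal.Quotient.mk 𝔭) h (by rw [hh]; exact hint2)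
      let : Algebra (S ⧸ 𝔭) (P ⧸ Q) := h.toAlgebra
      have : Algebra.IsIntegral (S ⧸ 𝔭) (P ⧸ Q) := ⟨hint3⟩
      have e2 : ringKrullDim (P ⧸ Q) = ringKrullDim (S ⧸ 𝔭) :=
        ringKrullDim_eq_of_integral (RingHom.kerLift_injective _)
      rw [← e2, e1] at hlt
      exact lt_irrefl _ hlt
    -- the kernel of `g` pulls back to zero, so it is zero
    have hQ' : (Q.map (Ideal.Quotient.mk (K i))).comap ψ = ⊥ := by
      rw [← hbot, h𝔭, ← RingHom.comap_ker]
      congr 1
      ext b
      obtain ⟨b, rfl⟩ := Ideal.Quotient.mk_surjective b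
      rw [RingHom.mem_ker, Ideal.Quotient.factor_mk, Ideal.Quotient.eq_zero_iff_mem,
        Ideal.mem_quotient_iff_mem hi]
    let : Algebra S (P ⧸ K i) := ψ.toAlgebra
    have : Algebra.IsIntegral S (P ⧸ K i) := ⟨hψint⟩
    have hmap := Ideal.eq_bot_of_comap_eq_bot (R := S) hQ'
    rwa [Ideal.map_eq_bot_iff_le_ker, Ideal.mk_ker] at hmap
  -- so the annihilator of `X` is contained in `Q₀`
  have hann₀ : Module.annihilator P X ≤ Q₀ := hann.trans (hQK ▸ hQ₀ i)
  have hrange : LinearMap.range (g₀ • (LinearMap.id : X →ₗ[P] X)) ≤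
      (Ideal.span {p}) • (⊤ : Submodule P X) := by
    rintro _ ⟨x, rfl⟩
    obtain ⟨x', hx'⟩ := hg₀ x
    rw [LinearMap.smul_apply, LinearMap.id_apply, hx']
    exact Submodule.smul_mem_smul (Ideal.mem_span_singleton_self p) trivial
  have : Module.Finite P X := by
    let : Algebra S P := φ.toAlgebra
    have : IsScalarTower S P X := IsScalarTower.of_algebraMap_smul hφ
    exact Module.Finite.of_restrictScalars_finite S P X
  obtain ⟨q, hqm, -, hqc, hq0⟩ :=
    LinearMap.exists_monic_and_natDegree_eq_and_coeff_mem_pow_and_aeval_eq_zero _ _ _ hrange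
  have hqann : q.eval g₀ ∈ Module.annihilator P X := by
    refine Module.mem_annihilator.2 fun x => ?_
    have := LinearMap.congr_fun hq0 x
    have e : (g₀ • (LinearMap.id : X →ₗ[P] X)) = algebraMap P (Module.End P X) g₀ := by
      rw [Algebra.algebraMap_eq_smul_one]; rfl
    rw [e, Polynomial.aeval_algebraMap_apply] at this
    simpa [Polynomial.coe_aeval_eq_eval] using this
  -- `q` is `X ^ deg` modulo `Q₀`
  have hcoeff : ∀ j < q.natDegree, q.coeff j ∈ Q₀ := fun j hj =>
    (Ideal.pow_le_self (Nat.sub_ne_zero_of_lt hj)).trans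
      ((Ideal.span_singleton_le_iff_mem Q₀).2 hp) (hqc j)
  have hpow : g₀ ^ q.natDegree ∈ Q₀ := by
    have he := q.eval_eq_sum_range (x := g₀)
    rw [Finset.sum_range_succ, hqm.coeff_natDegree, one_mul] at he
    have hsum : ∑ j ∈ Finset.range q.natDegree, q.coeff j * g₀ ^ j ∈ Q₀ :=
      sum_mem fun j hj => Q₀.mul_mem_right _ (hcoeff j (Finset.mem_range.1 hj))
    have := Q₀.sub_mem (hann₀ hqann) hsum
    rwa [he, add_sub_cancel_left] at this
  exact hgQ (Ideal.IsPrime.mem_of_pow_mem ‹_› _ hpow)

end Fermat.Agent.RT.Patch
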